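import Fermat.Agent.RT.Carayol.Geom.Expansion
import Fermat.Agent.JTors.TorsionChar
import Fermat.Agent.JTors.NormExp

/-!
# Roots in the field of conjugates give balanced classes

If the products of conjugates of `f'` by weights with zero sums over the lines are `m`-th powers in
the field of all conjugates, the character of the `m`-th roots of `f` is balanced.
-/

set_option autoImplicit false
set_option linter.style.haveILetI false
set_option linter.unusedSectionVars false
set_option synthInstance.maxHeartbeats 100000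

noncomputable section

open ModularCurve AlgebraicCurve UpperHalfPlane CongruenceSubgroup Filter Topology
open scoped MatrixGroups Manifold

namespace FLTAgent.RT.Carayol

open LevelRaise ModPoly Periods JTors LevelSq Hecke

local notation "Qbar" => AlgebraicClosure ℚ

theorem zpow_eq_div_toNat {G : Type*} [CommGroupWithZero G] {a : G} (ha : a ≠ 0) (c : ℤ) :
    a ^ c = a ^ c.toNat / a ^ (-c).toNat := by
  conv_lhs => rw [show c = (c.toNat : ℤ) - ((-c).toNat : ℤ) by omega]
  rw [zpow_sub₀ ha, zpow_natCast, zpow_natCast]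

theorem units_zpow_eq_div_toNat {G : Type*} [CommGroup G] (a : G) (c : ℤ) :
    a ^ c = a ^ c.toNat / a ^ (-c).toNat := by
  conv_lhs => rw [show c = (c.toNat : ℤ) - ((-c).toNat : ℤ) by omega]
  rw [zpow_sub, zpow_natCast, zpow_natCast, div_eq_mul_inv]

theorem mdifferentiable_finset_prod {X : Type*} (s : Finset X) {F : X → ℍ → ℂ}
    (h : ∀ x, MDiff (F x)) : MDiff (∏ x ∈ s, F x) := by
  classical
  induction s using Finset.induction_on with
  | empty => rw [Finset.prod_empty]; exact mdifferentiable_const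
  | insert a s ha ih => rw [Finset.prod_insert ha]; exact (h a).mul ih

variable {q : ℕ} [hq : Fact q.Prime]

local instance : NeZero q := ⟨hq.out.ne_zero⟩

theorem downPt_smul {u g : SL(2, ℤ)} (e : gDown q * matSL u = matSL g * gDown q) (w : ℍ) :
    downPt q (u • w) = g • downPt q w := by
  have e00 := congrFun (congrFun e 0) 0
  have e01 := congrFun (congrFun e 0) 1
  have e10 := congrFun (congrFun e 1) 0
  have e11 := congrFun (congrFun e 1) 1
  simp [Matrix.mul_apply, Fin.sum_univ_two] at e00 e01 e10 e11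
  have hq0 : (q : ℂ) ≠ 0 := Nat.cast_ne_zero.2 (NeZero.ne q)
  refine UpperHalfPlane.ext ?_
  rw [coe_downPt, UpperHalfPlane.coe_specialLinearGroup_apply,
    UpperHalfPlane.coe_specialLinearGroup_apply, coe_downPt]
  simp only [algebraMap_int_eq, eq_intCast, Complex.ofReal_intCast]
  have h11 : u 1 1 = g 1 1 := mul_left_cancel₀ (Int.natCast_ne_zero.2 (NeZero.ne q))
    (by linear_combination e11)
  have h00 : u 0 0 = g 0 0 := e00
  have h01 : u 0 1 = g 0 1 * (q : ℤ) := e01
  have h10 : (q : ℤ) * u 1 0 = g 1 0 := e10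
  rw [h00, h01, ← h10, h11]
  have hne : (u 1 0 : ℂ) * w + g 1 1 ≠ 0 := by
    rw [← h11]
    simpa [UpperHalfPlane.denom] using denom_ne_zero (u : GL (Fin 2) ℝ) w
  push_cast
  field_simp

variable {A : ValuationSubring Qbar} {N : ℕ} [NeZero N] {ζ : Qbarˣ}
  (hN : ¬ q ∣ N) (hζ : IsPrimitiveRoot (ζ : Qbar) q)

/-- Roots of the balanced products make the characters multiply to `1`. -/
theorem prod_char_eq_one (hζC : embC (ζ : Qbar) = (zetaC q : ℂ)) {M₀ : ℕ} [NeZero M₀]
    (hM₀ : M₀ ∣ q ^ 2 * N) {m : ℕ} (hm : m ≠ 0) {f : modularFunctionFieldBar M₀}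
    {χ : Gamma0 M₀ →* ℂˣ} (H : IsRootChar m f χ)
    {f' : MF (urField A) (q ^ 2 * N)} (hf' : f' ≠ 0)
    (heq : toSeriesQbar A (q ^ 2 * N) f' = (f : LaurentSeries Qbar))
    (hgeo : ∀ c : RootPair q → ℤ,
      (∀ o, ∑ p ∈ Finset.univ.filter (fun p : RootPair q => p.1.1 = o), c p = 0) →
      (∀ o, ∑ p ∈ Finset.univ.filter (fun p : RootPair q => p.1.2 = o), c p = 0) →
      ∃ h : fieldL q A N ζ, h ^ m = ∏ p, (iotaL (A := A) hN hζ p f') ^ c p)
    {X : Type*} [Fintype X] {k : SL(2, ℤ)} (hk : k ∈ Gamma (q * N)) (h : X → SL(2, ℤ))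
    (hh : ∀ x, h x ∈ Gamma0 N) (γ : X → Gamma0 M₀)
    (hγ : ∀ x σ, downPt q (h x • k • σ) = (γ x : SL(2, ℤ)) • downPt q (h x • σ))
    (c : X → ℤ)
    (hc : ∀ (r : Fin 2) (o : Option (Fin q)),
      ∑ x ∈ Finset.univ.filter (fun x => lineOf q r (h x) = o), c x = 0) :
    ∏ x, χ (γ x) ^ c x = 1 := by
  classical
  haveI : NeZero (q ^ 2 * N) := ⟨mul_ne_zero (pow_ne_zero _ (NeZero.ne q)) (NeZero.ne N)⟩
  obtain ⟨R, b, hd, hR⟩ := H
  obtain ⟨g, hg, hgR⟩ := hd.eq
  have hle := modFunRing_le_of_dvd (N := M₀) (M := q ^ 2 * N) hM₀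
  let b' : modFunRing (q ^ 2 * N) := ⟨(b : ℍ → ℂ), hle b.2⟩
  let g' : modFunRing (q ^ 2 * N) := ⟨(g : ℍ → ℂ), hle g.2⟩
  have hser : toC (q ^ 2 * N) (baseEmb A (q ^ 2 * N) f') * qL _ (b' ^ m) = qL _ g' := by
    rw [map_pow, toC_apply, coe_baseEmb, heq, ← toC_apply,
      show qL (q ^ 2 * N) b' = qL M₀ b from qL_eq_of_expands (expands_qL b),
      show qL (q ^ 2 * N) g' = qL M₀ g from qL_eq_of_expands (expands_qL g), hg]
  -- grouping by pairs
  set c' : RootPair q → ℤ := fun (p : RootPair q) =>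
    ∑ x ∈ Finset.univ.filter (fun x => pairOf (q := q) (h x) = p), c x with hc'
  have hsum : ∀ (r : Fin 2) (pr : RootPair q → Option (Fin q)),
      (∀ x, pr (pairOf (h x)) = lineOf q r (h x)) →
      ∀ o, ∑ p ∈ Finset.univ.filter (fun p => pr p = o), c' p = 0 := fun r pr hpr o => by
    rw [hc', Finset.sum_fiberwise_eq_sum_filter, ← hc r o]
    refine Finset.sum_congr (Finset.filter_congr fun x _ => ?_) fun _ _ => rfl
    simp [hpr]
  obtain ⟨hL, hhL⟩ := hgeo c' (hsum 0 (fun p => p.1.1) fun _ => rfl)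
    (hsum 1 (fun p => p.1.2) fun _ => rfl)
  set E : X → LaurentSeries ℂ := fun x => cExpand q N (embK (A := A) hN hζ (pairOf (h x)) f')
  have hprod : cExpand q N (hL : LaurentSeries Qbar) ^ m = ∏ x, E x ^ c x := by
    have h1 := congrArg (fun z : fieldL q A N ζ => cExpand q N (z : LaurentSeries Qbar)) hhL
    simp only [SubmonoidClass.coe_pow, map_pow] at h1
    rw [h1, show ((∏ p, iotaL (A := A) hN hζ p f' ^ c' p : fieldL q A N ζ) : LaurentSeries Qbar) =
      ∏ p, embK (A := A) hN hζ p f' ^ c' p from by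
        rw [← IntermediateField.coe_val, map_prod]
        simp [map_zpow₀, coe_iotaL]]
    rw [map_prod, ← Finset.prod_fiberwise_of_maps_to (g := fun x => pairOf (q := q) (h x))
      (t := Finset.univ) (fun x _ => Finset.mem_univ _)]
    refine Finset.prod_congr rfl fun p _ => ?_
    rw [map_zpow₀, Finset.prod_congr rfl (g := fun x => cExpand q N (embK (A := A) hN hζ p f') ^ c x)
      fun x hx => by simp only [E, (Finset.mem_filter.1 hx).2]]
    have hne : cExpand q N (embK (A := A) hN hζ p f') ≠ 0 :=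
      (map_ne_zero _).2 ((map_ne_zero _).2 hf')
    simp only [hc']
    generalize Finset.univ.filter (fun x => pairOf (q := q) (h x) = p) = s
    induction s using Finset.induction_on with
    | empty => simp
    | insert a t ha ih => rw [Finset.sum_insert ha, Finset.prod_insert ha, zpow_add₀ hne, ih]
  obtain ⟨F, G, α, β, hF, hG, hinv, hα, hβ, hβ0, heαβ⟩ := exists_invariant_quotient hζC hL.2
  -- functions
  set W := q * (q ^ 2 * N)
  set B : X → ℍ → ℂ := fun x σ => (b : ℍ → ℂ) (downPt q (h x • σ))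
  set Gx : X → ℍ → ℂ := fun x σ => (g : ℍ → ℂ) (downPt q (h x • σ))
  set Rx : X → ℍ → ℂ := fun x σ => R (downPt q (h x • σ))
  set cp : X → ℕ := fun x => (c x).toNat
  set cm : X → ℕ := fun x => (-c x).toNat
  have hEx : ∀ x, E x * downExp (h x) b' ^ m = downExp (h x) g' := fun x => by
    have := expEmb_mul (q ^ 2 * N) (downExp (h x)) (downExp_injective (h x)) hser
    rwa [map_pow, ← cExpand_embK hN hζ hζC (hh x)] at this
  have hE0 : ∀ x, E x ≠ 0 := fun x => (map_ne_zero _).2 ((map_ne_zero _).2 hf')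
  have hEprod : cExpand q N (hL : LaurentSeries Qbar) ^ m * ∏ x, E x ^ cm x = ∏ x, E x ^ cp x := by
    rw [hprod, ← Finset.prod_mul_distrib]
    refine Finset.prod_congr rfl fun x _ => ?_
    rw [zpow_eq_div_toNat (hE0 x), div_mul_cancel₀ _ (pow_ne_zero _ (hE0 x))]
  have hexB : ∀ x, Expands W (B x) (downExp (h x) b') := fun x => expands_downExp (h x) b'
  have hexG : ∀ x, Expands W (Gx x) (downExp (h x) g') := fun x => expands_downExp (h x) g'
  have hexprod : ∀ (U : X → ℍ → ℂ) (u : X → LaurentSeries ℂ), (∀ x, Expands W (U x) (u x)) →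
      Expands W (∏ x, U x) (∏ x, u x) := fun U u hU => by
    induction (Finset.univ : Finset X) using Finset.induction_on with
    | empty => simpa using Expands.one W
    | insert a s ha ih => rw [Finset.prod_insert ha, Finset.prod_insert ha]; exact (hU a).mul ih
  have hB : ∀ x, MDiff (B x) := fun x => mdifferentiable_comp_down b.2.1 (h x)
  have hGx : ∀ x, MDiff (Gx x) := fun x => mdifferentiable_comp_down g.2.1 (h x)
  have hRx : ∀ x, MDiff (Rx x) := fun x => mdifferentiable_comp_down hd.mdiff (h x)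
  -- the identity between holomorphic functions
  have hid : F ^ m * ∏ x, Gx x ^ cm x * (B x ^ m) ^ cp x =
      G ^ m * ∏ x, Gx x ^ cp x * (B x ^ m) ^ cm x := by
    refine eq_of_expands (h := W) ?_ ?_ ((hα.pow m).mul (hexprod _ _ fun x =>
      ((hexG x).pow (cm x)).mul (((hexB x).pow m).pow (cp x)))) ?_
    · exact (hF.pow m).mul (mdifferentiable_finset_prod _ fun x =>
        ((hGx x).pow _).mul (((hB x).pow m).pow _))
    · exact (hG.pow m).mul (mdifferentiable_finset_prod _ fun x =>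
        ((hGx x).pow _).mul (((hB x).pow m).pow _))
    · refine cast (congrArg (Expands W _) ?_) ((hβ.pow m).mul (hexprod _ _ fun x =>
        ((hexG x).pow (cp x)).mul (((hexB x).pow m).pow (cm x))))
      simp only [← hEx, mul_pow, Finset.prod_mul_distrib]
      rw [← heαβ, mul_pow, ← hEprod]
      ring
  set P₁ : ℍ → ℂ := F * ∏ x, Rx x ^ cm x * B x ^ cp x
  set P₂ : ℍ → ℂ := G * ∏ x, Rx x ^ cp x * B x ^ cm x
  have hpow : ∀ σ, P₁ σ ^ m = P₂ σ ^ m := fun σ => by
    have h1 := congrFun hid σ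
    simp only [Pi.mul_apply, Pi.pow_apply, Finset.prod_apply] at h1
    simp only [P₁, P₂, Pi.mul_apply, Finset.prod_apply, Pi.pow_apply, mul_pow, ← Finset.prod_pow]
    convert h1 using 2 <;>
      exact Finset.prod_congr rfl fun x _ => by
        rw [pow_right_comm (Rx x σ), hgR, pow_right_comm (B x σ)]
  have hP₂ : P₂ ≠ 0 := by
    have hR0 : ∀ x, Rx x ≠ 0 := fun x h0 => hd.ne (comp_down_injective (h x) (g := 0) h0)
    have hB0 : ∀ x, B x ≠ 0 := fun x h0 =>
      coe_ne_zero hd.b_ne (comp_down_injective (h x) (g := 0) h0)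
    have hG0 : G ≠ 0 := fun h0 => hβ0 ((h0 ▸ hβ).unique (Expands.zero W))
    have hprod0 : ∀ s : Finset X, (∏ x ∈ s, Rx x ^ cp x * B x ^ cm x) ≠ 0 := fun s => by
      induction s using Finset.induction_on with
      | empty => simp
      | insert a s ha ih =>
        rw [Finset.prod_insert ha]
        refine mul_ne_zero_of_mdiff (((hRx a).pow _).mul ((hB a).pow _))
          (mdifferentiable_finset_prod _ fun x => ((hRx x).pow _).mul ((hB x).pow _))
          (mul_ne_zero_of_mdiff ((hRx a).pow _) ((hB a).pow _) (fun h0 => hR0 a ?_)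
            fun h0 => hB0 a ?_) ih <;>
        · funext σ; exact eq_zero_of_pow_eq_zero (congrFun h0 σ)
    exact mul_ne_zero_of_mdiff hG (mdifferentiable_finset_prod _ fun x =>
      ((hRx x).pow _).mul ((hB x).pow _)) hG0 (hprod0 _)
  obtain ⟨ξ, hξ, hξP⟩ := exists_const_mul_of_pow_eq
    (hF.mul (mdifferentiable_finset_prod _ fun x => ((hRx x).pow _).mul ((hB x).pow _)))
    (hG.mul (mdifferentiable_finset_prod _ fun x => ((hRx x).pow _).mul ((hB x).pow _)))
    hm hP₂ hpow
  obtain ⟨σ, hσ⟩ := Function.ne_iff.1 hP₂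
  have hξ0 : ξ ≠ 0 := fun h0 => by rw [h0, zero_pow hm] at hξ; exact zero_ne_one hξ
  have hact : ∀ e e' : X → ℕ, (∏ x, Rx x ^ e x * B x ^ e' x) (k • σ) =
      ((∏ x, χ (γ x) ^ e x : ℂˣ) : ℂ) * (∏ x, Rx x ^ e x * B x ^ e' x) σ := fun e e' => by
    rw [Finset.prod_apply, Finset.prod_apply, Units.coe_prod, ← Finset.prod_mul_distrib]
    refine Finset.prod_congr rfl fun x _ => ?_
    simp only [Pi.mul_apply, Pi.pow_apply, Rx, B, hγ, hR, smul_eq_coe, mul_pow,
      Units.val_pow_eq_pow_val]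
    ring
  have hval := hξP (k • σ)
  simp only [Pi.mul_apply, hact, (hinv k hk σ).1, (hinv k hk σ).2] at hval
  have hσ1 := hξP σ
  simp only [Pi.mul_apply] at hσ1
  have key : ((∏ x, χ (γ x) ^ cm x : ℂˣ) : ℂ) = ((∏ x, χ (γ x) ^ cp x : ℂˣ) : ℂ) := by
    refine mul_right_cancel₀ (mul_ne_zero hξ0 hσ) ?_
    simp only [P₂, Pi.mul_apply] at hσ ⊢
    linear_combination hval - ((∏ x, χ (γ x) ^ cm x : ℂˣ) : ℂ) * hσ1
  rw [Finset.prod_congr rfl (g := fun x => χ (γ x) ^ cp x / χ (γ x) ^ cm x)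
    fun x _ => units_zpow_eq_div_toNat _ _, Finset.prod_div_distrib, Units.ext key, div_self']

/-- The class of the character of the roots is balanced. -/
theorem isBalancedClass_of_roots (hζC : embC (ζ : Qbar) = (zetaC q : ℂ)) {M : ℕ} [NeZero M]
    (hMN : M ∣ N) (W : WData M q) {m : ℕ} (hm : m ≠ 0)
    {f : modularFunctionFieldBar (M * q * q)} {χ : Gamma0 (M * q * q) →* ℂˣ}
    (H : IsRootChar m f χ) {f' : MF (urField A) (q ^ 2 * N)} (hf' : f' ≠ 0)
    (heq : toSeriesQbar A (q ^ 2 * N) f' = (f : LaurentSeries Qbar))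
    (hgeo : ∀ c : RootPair q → ℤ,
      (∀ o, ∑ p ∈ Finset.univ.filter (fun p : RootPair q => p.1.1 = o), c p = 0) →
      (∀ o, ∑ p ∈ Finset.univ.filter (fun p : RootPair q => p.1.2 = o), c p = 0) →
      ∃ h : fieldL q A N ζ, h ^ m = ∏ p, (iotaL (A := A) hN hζ p f') ^ c p)
    {C : Type*} [AddCommGroup C] (φ : Coh (M * q * q) trivChar C)
    (e : Additive ℂˣ → C) (he : ∀ (X : Type) [Fintype X] (u : X → ℂˣ) (c : X → ℤ),
      (∀ x, u x ^ m = 1) → ∏ x, u x ^ c x = 1 → ∑ x, c x • e (Additive.ofMul (u x)) = 0)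
    (hφ : ∀ γ : Gamma0 (M * q * q),
      toG0 (M * q * q) φ (Additive.ofMul γ) = e (Additive.ofMul (χ γ))) :
    IsBalancedClass W φ := by
  haveI : NeZero (M * q * q) :=
    ⟨mul_ne_zero (mul_ne_zero (NeZero.ne M) (NeZero.ne q)) (NeZero.ne q)⟩
  have hM₀ : M * q * q ∣ q ^ 2 * N := by
    rw [show M * q * q = q ^ 2 * M by ring]
    exact mul_dvd_mul_left _ hMN
  have hQ : Gamma (q * N * (M * q * q)) ≤ upper0 (M * q) q := fun γ hγ => by
    have h := Gamma_le_of_dvd (dvd_mul_left (M * q * q) (q * N)) hγ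
    rw [Gamma_mem] at h
    refine ⟨mem_gamma0_iff.mpr ?_, ?_⟩
    · exact (Int.natCast_dvd_natCast.mpr (dvd_mul_right (M * q) q)).trans
        ((ZMod.intCast_zmod_eq_zero_iff_dvd _ _).mp h.2.2.1)
    · exact (Int.natCast_dvd_natCast.mpr (dvd_mul_left q (M * q))).trans
        ((ZMod.intCast_zmod_eq_zero_iff_dvd _ _).mp h.2.1)
  refine isBalancedClass_of_lines W φ hMN hN
    (mul_ne_zero (mul_ne_zero (NeZero.ne q) (NeZero.ne N)) (NeZero.ne _)) hQ
    fun X _ k hk h hh c hc => ?_
  set γ : X → Gamma0 (M * q * q) := fun x => (conjLE_gDown (M * q) q).hom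
    ⟨h x * k * (h x)⁻¹, hQ ((Gamma_normal _).conj_mem _ hk _)⟩
  have hone := prod_char_eq_one hN hζ hζC hM₀ hm H hf' heq hgeo
    (Gamma_le_of_dvd (dvd_mul_right (q * N) (M * q * q)) hk) h hh γ (fun x σ => by
      rw [← downPt_smul ((conjLE_gDown (M * q) q).spec
        ⟨h x * k * (h x)⁻¹, hQ ((Gamma_normal _).conj_mem _ hk _)⟩), ← mul_smul, ← mul_smul]
      simp [mul_assoc]) c hc
  have hz := he X (fun x => χ (γ x)) c (fun x => H.pow_eq_one (γ x)) hone
  rw [← hz]
  refine Finset.sum_congr rfl fun x _ => congrArg (c x • ·) ?_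
  exact hφ (γ x)

end FLTAgent.RT.Carayol
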