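import Fermat.Agent.RT.Carayol.Geom.Pairs
import Fermat.Agent.LevelSq.GaloisField
import Fermat.Agent.JTors.TRep
import Fermat.Agent.JTors.Embedding

/-!
# The conjugate expansions at level `q² N` as functions on the upper half plane

With `ζ = exp (2πi/q)`, the embedding attached to the lines of the rows of `h ∈ Γ₀(N)` is the
expansion of `f (h σ / q)`, and every element of the field of all conjugates is a quotient of two
holomorphic functions invariant under `Γ(q N)`.
-/

set_option autoImplicit false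
set_option linter.style.haveILetI false
set_option linter.unusedSectionVars false
set_option synthInstance.maxHeartbeats 100000

noncomputable section

open ModularCurve AlgebraicCurve UpperHalfPlane CongruenceSubgroup Filter Topology
open scoped MatrixGroups Manifold

namespace FLTAgent.RT.Carayol

open LevelRaise ModPoly Periods JTors LevelSq Hecke

local notation "Qbar" => AlgebraicClosure ℚ

/-- A root of unity of `ℚ̄` going to `exp (2πi/n)`. -/
theorem exists_zeta_complex (n : ℕ) [NeZero n] :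
    ∃ ζ : Qbarˣ, IsPrimitiveRoot (ζ : Qbar) n ∧ embC (ζ : Qbar) = (zetaC n : ℂ) := by
  obtain ⟨η, hη⟩ := HasEnoughRootsOfUnity.exists_primitiveRoot Qbar n
  have hηC : IsPrimitiveRoot (embC η) n := hη.map_of_injective embC.injective
  obtain ⟨i, -, hi⟩ := hηC.eq_pow_of_pow_eq_one (ξ := (zetaC n : ℂ))
    (IsPrimitiveRoot.coe_units_iff.2 (isPrimitiveRoot_zetaC n)).pow_eq_one
  have h : IsPrimitiveRoot (η ^ i) n :=
    IsPrimitiveRoot.of_map_of_injective (f := embC)
      (by rw [map_pow, hi]; exact IsPrimitiveRoot.coe_units_iff.2 (isPrimitiveRoot_zetaC n))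
      embC.injective
  exact ⟨(h.isUnit (NeZero.ne n)).unit, h, by rw [IsUnit.unit_spec, map_pow, hi]⟩

/-- Points related by a unimodular fractional transformation have the same `j`. -/
theorem jFun_eq_of_frac {A B C D : ℤ} (hdet : A * D - B * C = 1) {v w : ℍ}
    (h : (v : ℂ) * ((C : ℂ) * w + D) = (A : ℂ) * w + B) : jFun v = jFun w := by
  have hne : (C : ℂ) * w + D ≠ 0 := fun h0 => by
    rw [h0, mul_zero] at h
    rcases eq_or_ne C 0 with rfl | hC
    · simp only [mul_zero, sub_zero] at hdet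
      simp at h0
      simp [h0] at hdet
    · have h0' := congrArg Complex.im h0
      simp only [Complex.add_im, Complex.mul_im, Complex.intCast_re, Complex.intCast_im,
        Complex.zero_im, zero_mul, add_zero] at h0'
      exact mul_ne_zero (Int.cast_ne_zero.2 hC) w.im_pos.ne' h0'
  have e : v = slMk A B C D hdet • w := by
    refine UpperHalfPlane.ext ?_
    rw [UpperHalfPlane.coe_specialLinearGroup_apply, eq_div_iff (by
      simpa [slMk] using hne)]
    simpa [slMk] using h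
  rw [e, jFun_smul]

variable {q : ℕ} [hq : Fact q.Prime]

local instance : NeZero q := ⟨hq.out.ne_zero⟩

theorem div_div_mul_cancel_aux {X E Q : ℂ} (hE : E ≠ 0) (hQ : Q ≠ 0) :
    X / E / Q * (Q * E) = X := by
  field_simp

theorem sq_mul_div_aux {X E Q R : ℂ} (hE : E ≠ 0) (hQ : Q ≠ 0) :
    Q ^ 2 * R * (X / E / Q) * E = Q * R * X := by
  field_simp

/-- `σ ↦ σ / q`. -/
def downPt (q : ℕ) (σ : ℍ) : ℍ := tRep q (some 0) • σ

theorem coe_downPt (σ : ℍ) : (downPt q σ : ℂ) = (σ : ℂ) / q := by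
  rw [downPt, coe_tRep_some_smul (NeZero.ne q)]
  simp

/-- The representative attached to a line. -/
def lineRep (o : Option (Fin q)) : Option (ZMod q) := o.map fun i => ((i : ℕ) : ZMod q)

/-- The conjugate of `j (d τ)` attached to a line. -/
def conjFun (d : ℕ) (o : Option (Fin q)) : ℍ → ℂ := fun σ => jMul d (tRep q (lineRep o) • σ)

theorem coe_lineRep_some (i : Fin q) (σ : ℍ) :
    ((tRep q (lineRep (some i)) • σ : ℍ) : ℂ) = ((σ : ℂ) + (i : ℕ)) / q := by
  rw [show lineRep (some i) = some ((i : ℕ) : ZMod q) from rfl,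
    coe_tRep_some_smul (NeZero.ne q), ZMod.val_cast_of_lt i.2]

theorem coe_lineRep_none (σ : ℍ) :
    ((tRep q (lineRep (none : Option (Fin q))) • σ : ℍ) : ℂ) = (q : ℂ) * σ :=
  coe_tRep_none_smul (NeZero.ne q) σ

theorem coe_jMul_arg {d : ℕ} [NeZero d] (τ : ℍ) :
    ((ofComplex ((d : ℂ) * τ) : ℍ) : ℂ) = (d : ℂ) * τ := by
  rw [ofComplex_apply_of_im_pos]
  simpa using mul_pos (Nat.cast_pos.2 (Nat.pos_of_ne_zero (NeZero.ne d))) τ.im_pos

theorem jMul_one_eq : jMul 1 = jFun := by
  funext τ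
  simp [jMul]

theorem mdifferentiable_conjFun (d : ℕ) [NeZero d] (o : Option (Fin q)) : MDiff (conjFun d o) :=
  (mdifferentiable_jMul (NeZero.ne d)).comp
    (UpperHalfPlane.mdifferentiable_smul (tRep_det_pos q _))

theorem jFun_down_smul (h : SL(2, ℤ)) (σ : ℍ) :
    jFun (downPt q (h • σ)) = conjFun 1 (lineOf q 0 h) σ := by
  have hd := det_matSL h
  have hne := denom_ne_zero (h : GL (Fin 2) ℝ) σ
  have hv : (downPt q (h • σ) : ℂ) * ((q : ℂ) * ((matSL h 1 0 : ℂ) * σ + matSL h 1 1)) =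
      (matSL h 0 0 : ℂ) * σ + matSL h 0 1 := by
    have hne' : (matSL h 1 0 : ℂ) * σ + matSL h 1 1 ≠ 0 := by
      simpa [UpperHalfPlane.denom, matSL] using hne
    have hq0 : (q : ℂ) ≠ 0 := Nat.cast_ne_zero.2 (NeZero.ne q)
    rw [coe_downPt, UpperHalfPlane.coe_specialLinearGroup_apply]
    simp only [algebraMap_int_eq, eq_intCast, Complex.ofReal_intCast]
    exact div_div_mul_cancel_aux hne' hq0
  rw [conjFun, jMul_one_eq]
  rcases ho : lineOf q 0 h with _ | i
  · obtain ⟨a', ha'⟩ := (ZMod.intCast_zmod_eq_zero_iff_dvd _ _).mp (rowLine_eq_none ho)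
    refine jFun_eq_of_frac (A := a') (B := matSL h 0 1) (C := matSL h 1 0)
      (D := (q : ℤ) * matSL h 1 1) (by linear_combination hd - matSL h 1 1 * ha') ?_
    rw [coe_lineRep_none]
    have : (matSL h 0 0 : ℂ) = q * a' := by exact_mod_cast ha'
    push_cast
    linear_combination hv + (σ : ℂ) * this
  · obtain ⟨B', hB'⟩ : (q : ℤ) ∣ matSL h 0 1 - matSL h 0 0 * (i : ℕ) := by
      rw [← ZMod.intCast_zmod_eq_zero_iff_dvd]
      push_cast
      rw [(rowLine_eq_some ho).2, sub_self]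
    refine jFun_eq_of_frac (A := matSL h 0 0) (B := B') (C := (q : ℤ) * matSL h 1 0)
      (D := matSL h 1 1 - matSL h 1 0 * (i : ℕ))
      (by linear_combination hd + matSL h 1 0 * hB') ?_
    rw [coe_lineRep_some]
    have hq0 : (q : ℂ) ≠ 0 := Nat.cast_ne_zero.2 (NeZero.ne q)
    have : (matSL h 0 1 : ℂ) - matSL h 0 0 * (i : ℕ) = q * B' := by exact_mod_cast hB'
    push_cast
    field_simp
    linear_combination hv + this

theorem jMul_down_smul {N : ℕ} [NeZero N] (hN : ¬ q ∣ N) {h : SL(2, ℤ)} (hh : h ∈ Gamma0 N)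
    (σ : ℍ) : jMul (q ^ 2 * N) (downPt q (h • σ)) = conjFun N (lineOf q 1 h) σ := by
  obtain ⟨c', hc'⟩ := mem_gamma0_iff.mp hh
  have hd := det_matSL h
  have hq0 : (q : ℂ) ≠ 0 := Nat.cast_ne_zero.2 (NeZero.ne q)
  have hne : (matSL h 1 0 : ℂ) * σ + matSL h 1 1 ≠ 0 := by
    simpa [UpperHalfPlane.denom, matSL] using denom_ne_zero (h : GL (Fin 2) ℝ) σ
  haveI : NeZero (q ^ 2 * N) := ⟨mul_ne_zero (pow_ne_zero _ (NeZero.ne q)) (NeZero.ne N)⟩
  have hv : (q : ℂ) ^ 2 * N * (downPt q (h • σ) : ℂ) *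
      ((matSL h 1 0 : ℂ) * σ + matSL h 1 1) =
      (q : ℂ) * N * ((matSL h 0 0 : ℂ) * σ + matSL h 0 1) := by
    rw [coe_downPt, UpperHalfPlane.coe_specialLinearGroup_apply]
    simp only [algebraMap_int_eq, eq_intCast, Complex.ofReal_intCast]
    exact sq_mul_div_aux hne hq0
  have hc : (matSL h 1 0 : ℂ) = (N : ℂ) * c' := by exact_mod_cast hc'
  rw [conjFun, jMul, jMul]
  rcases ho : lineOf q 1 h with _ | i
  · obtain ⟨c'', hc''⟩ : (q : ℤ) ∣ c' := by
      have h0 := rowLine_eq_none ho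
      rw [hc', ZMod.intCast_zmod_eq_zero_iff_dvd] at h0
      refine (Int.Prime.dvd_mul' hq.out h0).resolve_left ?_
      exact_mod_cast hN
    refine jFun_eq_of_frac (A := matSL h 0 0) (B := (q : ℤ) * N * matSL h 0 1) (C := c'')
      (D := matSL h 1 1)
      (by linear_combination hd + matSL h 0 1 * hc' + matSL h 0 1 * N * hc'') ?_
    rw [coe_jMul_arg, coe_jMul_arg, coe_lineRep_none]
    have : (matSL h 1 0 : ℂ) = (N : ℂ) * ((q : ℂ) * c'') := by rw [hc]; exact_mod_cast congrArg _ hc''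
    push_cast
    linear_combination hv - (q : ℂ) ^ 2 * N * (downPt q (h • σ) : ℂ) * (σ : ℂ) * this
  · obtain ⟨e, he⟩ : (q : ℤ) ∣ matSL h 1 1 - matSL h 1 0 * (i : ℕ) := by
      rw [← ZMod.intCast_zmod_eq_zero_iff_dvd]
      push_cast
      rw [(rowLine_eq_some ho).2, sub_self]
    refine jFun_eq_of_frac (A := matSL h 0 0 * q)
      (B := (N : ℤ) * (matSL h 0 1 - matSL h 0 0 * (i : ℕ))) (C := c') (D := e)
      (by linear_combination hd + (matSL h 0 1 - matSL h 0 0 * (i : ℕ)) * hc' - matSL h 0 0 * he) ?_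
    rw [coe_jMul_arg, coe_jMul_arg, coe_lineRep_some]
    have he' : (matSL h 1 1 : ℂ) - matSL h 1 0 * (i : ℕ) = q * e := by exact_mod_cast he
    push_cast
    field_simp
    rw [hc] at hv he'
    refine mul_left_cancel₀ hq0 ?_
    linear_combination hv - (q : ℂ) ^ 2 * N * (downPt q (h • σ) : ℂ) * he'

theorem conjFun_smul (d : ℕ) [NeZero d] (o : Option (Fin q)) {k : SL(2, ℤ)}
    (hk : k ∈ Gamma (q * d)) (σ : ℍ) : conjFun d o (k • σ) = conjFun d o σ := by
  have hd := det_matSL k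
  rw [Gamma_mem] at hk
  obtain ⟨hA, hB, hC, hE⟩ := hk
  obtain ⟨b', hb'⟩ := (ZMod.intCast_zmod_eq_zero_iff_dvd _ _).mp hB
  obtain ⟨c', hc'⟩ := (ZMod.intCast_zmod_eq_zero_iff_dvd _ _).mp hC
  obtain ⟨a', ha'⟩ : ((q * d : ℕ) : ℤ) ∣ matSL k 0 0 - 1 := by
    rw [← ZMod.intCast_zmod_eq_zero_iff_dvd]; push_cast; rw [hA, sub_self]
  obtain ⟨e', he'⟩ : ((q * d : ℕ) : ℤ) ∣ matSL k 1 1 - 1 := by
    rw [← ZMod.intCast_zmod_eq_zero_iff_dvd]; push_cast; rw [hE, sub_self]
  push_cast at hb' hc' ha' he'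
  have hq0 : (q : ℂ) ≠ 0 := Nat.cast_ne_zero.2 (NeZero.ne q)
  have hd0 : (d : ℂ) ≠ 0 := Nat.cast_ne_zero.2 (NeZero.ne d)
  have hne : (matSL k 1 0 : ℂ) * σ + matSL k 1 1 ≠ 0 := by
    simpa [UpperHalfPlane.denom, matSL] using denom_ne_zero (k : GL (Fin 2) ℝ) σ
  have hks : ((k • σ : ℍ) : ℂ) * ((matSL k 1 0 : ℂ) * σ + matSL k 1 1) =
      (matSL k 0 0 : ℂ) * σ + matSL k 0 1 := by
    rw [UpperHalfPlane.coe_specialLinearGroup_apply]
    simp only [algebraMap_int_eq, eq_intCast, Complex.ofReal_intCast]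
    exact div_mul_cancel₀ _ hne
  simp only [conjFun, jMul]
  rcases o with _ | i
  · refine jFun_eq_of_frac (A := matSL k 0 0) (B := (q : ℤ) * d * matSL k 0 1) (C := c')
      (D := matSL k 1 1) (by linear_combination hd + matSL k 0 1 * hc') ?_
    rw [coe_jMul_arg, coe_jMul_arg, coe_lineRep_none, coe_lineRep_none]
    have hc : (matSL k 1 0 : ℂ) = q * d * c' := by exact_mod_cast hc'
    push_cast
    rw [hc] at hks
    linear_combination (d : ℂ) * q * hks
  · refine jFun_eq_of_frac (A := matSL k 0 0 + (i : ℕ) * matSL k 1 0)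
      (B := (d : ℤ) * d * (b' + (i : ℕ) * (e' - a') - (i : ℕ) * (i : ℕ) * c'))
      (C := (q : ℤ) * q * c') (D := matSL k 1 1 - (i : ℕ) * matSL k 1 0) ?_ ?_
    · have e1 : matSL k 0 0 = 1 + q * d * a' := by linear_combination ha'
      have e2 : matSL k 1 1 = 1 + q * d * e' := by linear_combination he'
      have e3 : matSL k 0 1 = (q : ℤ) * d * b' := hb'
      have e4 : matSL k 1 0 = (q : ℤ) * d * c' := hc'
      rw [e1, e2, e3, e4] at hd
      rw [e1, e2, e4]
      linear_combination hd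
    · rw [coe_jMul_arg, coe_jMul_arg, coe_lineRep_some, coe_lineRep_some]
      have e1 : (matSL k 0 0 : ℂ) = 1 + q * d * a' := by
        have : matSL k 0 0 = 1 + q * d * a' := by linear_combination ha'
        exact_mod_cast this
      have e2 : (matSL k 1 1 : ℂ) = 1 + q * d * e' := by
        have : matSL k 1 1 = 1 + q * d * e' := by linear_combination he'
        exact_mod_cast this
      have e3 : (matSL k 0 1 : ℂ) = q * d * b' := by exact_mod_cast hb'
      have e4 : (matSL k 1 0 : ℂ) = q * d * c' := by exact_mod_cast hc'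
      rw [e1, e2, e3, e4] at hks
      push_cast
      rw [e1, e2, e4]
      field_simp
      linear_combination hks

theorem expands_conjFun {ζ : Qbarˣ} (hζC : embC (ζ : Qbar) = (zetaC q : ℂ)) (d : ℕ) [NeZero d]
    (o : Option (Fin q)) :
    Expands q (conjFun d o) (coeffMap embC (rootMap ζ o (jd Qbar d))) := by
  have hj : coeffMap embC (jd Qbar d) = qExpand ℂ d (jqModC ℂ) := by
    rw [coeffMap_qExpand, coeffMap_jqModC]
  have hqpos : (0 : ℝ) < q := by exact_mod_cast hq.out.pos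
  rcases o with _ | i
  · haveI : NeZero (q * q) := ⟨mul_ne_zero (NeZero.ne q) (NeZero.ne q)⟩
    have hφ : Tendsto (fun σ : ℍ => tRep q (lineRep (none : Option (Fin q))) • σ) atImInfty
        atImInfty := by
      rw [atImInfty, tendsto_comap_iff]
      refine ((tendsto_comap (f := UpperHalfPlane.im) (x := atTop)).const_mul_atTop hqpos).congr
        fun z => ?_
      show (q : ℝ) * z.im = ((tRep q (lineRep (none : Option (Fin q))) • z : ℍ) : ℂ).im
      rw [coe_lineRep_none]; simp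
    have := (expands_jMul (d := d)).comp_scale (h' := q) (k := q * q) 1 hφ fun τ => by
      rw [coe_lineRep_none, Units.val_one, one_mul, Function.Periodic.qParam,
        Function.Periodic.qParam, ← Complex.exp_nat_mul]
      congr 1
      have : (q : ℂ) ≠ 0 := Nat.cast_ne_zero.2 (NeZero.ne q)
      push_cast
      field_simp
    rw [rootMap_none, coeffMap_qExpand, hj]
    unfold conjFun
    simpa [twist_one_unit] using this
  · have hφ : Tendsto (fun σ : ℍ => tRep q (lineRep (some i)) • σ) atImInfty atImInfty := by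
      rw [atImInfty, tendsto_comap_iff]
      refine ((tendsto_comap (f := UpperHalfPlane.im) (x := atTop)).const_mul_atTop
        (inv_pos.2 hqpos)).congr fun z => ?_
      show (q : ℝ)⁻¹ * z.im = ((tRep q (lineRep (some i)) • z : ℍ) : ℂ).im
      rw [coe_lineRep_some]
      simp [Complex.div_natCast_im]
      ring
    have := (expands_jMul (d := d)).comp_scale (h' := q) (k := 1) (zetaC q ^ (i : ℕ)) hφ fun τ => by
      rw [coe_lineRep_some, pow_one, Units.val_pow_eq_pow_val, zetaC, Units.val_mk0,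
        Function.Periodic.qParam, Function.Periodic.qParam, ← Complex.exp_nat_mul,
        ← Complex.exp_add]
      congr 1
      have : (q : ℂ) ≠ 0 := Nat.cast_ne_zero.2 (NeZero.ne q)
      push_cast
      field_simp
      ring
    rw [rootMap_some, ModPoly.coeffMap_twist, hj,
      show Units.map (embC : Qbar →* ℂ) (ζ ^ (i : ℕ)) = zetaC q ^ (i : ℕ) from Units.ext (by
        simp [hζC])]
    unfold conjFun
    simpa [qExpand_one_apply] using this

variable {A : ValuationSubring Qbar} {N : ℕ} [NeZero N]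

/-- The expansions over `ℂ`, at the width of level `q² N` composed with `σ ↦ σ / q`. -/
def cExpand (q N : ℕ) [NeZero q] [NeZero N] : LaurentSeries Qbar →+* LaurentSeries ℂ :=
  (qExpand ℂ (q ^ 2 * N)).comp (coeffMap embC)

theorem expands_cExpand_conjFun {ζ : Qbarˣ} (hζC : embC (ζ : Qbar) = (zetaC q : ℂ)) (d : ℕ)
    [NeZero d] (o : Option (Fin q)) :
    Expands (q * (q ^ 2 * N)) (conjFun d o) (cExpand q N (rootMap ζ o (jd Qbar d))) :=
  (expands_conjFun hζC d o).width_mul

theorem comp_down_mem_expRing {g : ℍ → ℂ} (hg : g ∈ modFunRing (q ^ 2 * N)) (h : SL(2, ℤ)) :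
    (fun σ => g (downPt q (h • σ))) ∈ expRing (q * (q ^ 2 * N)) := by
  rw [mul_comm q]
  exact comp_tRep_mem_expRing hg (some 0) h

theorem mdifferentiable_comp_down {g : ℍ → ℂ} (hg : MDiff g) (h : SL(2, ℤ)) :
    MDiff fun σ => g (downPt q (h • σ)) :=
  (hg.comp (UpperHalfPlane.mdifferentiable_smul (tRep_det_pos q (some 0)))).comp
    (UpperHalfPlane.mdifferentiable_smul (g := (h : GL (Fin 2) ℝ)) (by simp))

theorem comp_down_injective (h : SL(2, ℤ)) {f g : ℍ → ℂ}
    (e : (fun σ => f (downPt q (h • σ))) = fun σ => g (downPt q (h • σ))) : f = g := by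
  funext τ
  have := congrFun e (h⁻¹ • (tRep q (some 0))⁻¹ • τ)
  simpa [downPt] using this

/-- The expansion of `g (h σ / q)`. -/
def downExp (h : SL(2, ℤ)) : modFunRing (q ^ 2 * N) →ₐ[ℂ] LaurentSeries ℂ where
  toFun g := qLaurentHom (q * (q ^ 2 * N)) ⟨_, comp_down_mem_expRing g.2 h⟩
  map_one' := map_one (qLaurentHom (q * (q ^ 2 * N)))
  map_mul' a b := map_mul (qLaurentHom (q * (q ^ 2 * N))) ⟨_, comp_down_mem_expRing a.2 h⟩
    ⟨_, comp_down_mem_expRing b.2 h⟩
  map_zero' := map_zero (qLaurentHom (q * (q ^ 2 * N)))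
  map_add' a b := map_add (qLaurentHom (q * (q ^ 2 * N))) ⟨_, comp_down_mem_expRing a.2 h⟩
    ⟨_, comp_down_mem_expRing b.2 h⟩
  commutes' c := AlgHom.commutes (qLaurentHom (q * (q ^ 2 * N))) c

theorem expands_downExp (h : SL(2, ℤ)) (g : modFunRing (q ^ 2 * N)) :
    Expands (q * (q ^ 2 * N)) (fun σ => (g : ℍ → ℂ) (downPt q (h • σ))) (downExp h g) :=
  expands_expSeries (⟨_, comp_down_mem_expRing g.2 h⟩ : expRing (q * (q ^ 2 * N)))

theorem downExp_injective (h : SL(2, ℤ)) :
    Function.Injective (downExp (q := q) (N := N) h) := fun f g e =>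
  Subtype.ext (comp_down_injective h (eq_of_expands (mdifferentiable_comp_down f.2.1 h)
    (mdifferentiable_comp_down g.2.1 h) (expands_downExp h f) (e ▸ expands_downExp h g)))

/-- The pair of lines of the rows. -/
def pairOf (h : SL(2, ℤ)) : RootPair q := ⟨(lineOf q 0 h, lineOf q 1 h), lineOf_ne h⟩

variable (hN : ¬ q ∣ N) {ζ : Qbarˣ} (hζ : IsPrimitiveRoot (ζ : Qbar) q)

/-- The conjugate expansion attached to `h` is the expansion of `f (h σ / q)`. -/
theorem cExpand_embK (hζC : embC (ζ : Qbar) = (zetaC q : ℂ)) {h : SL(2, ℤ)} (hh : h ∈ Gamma0 N)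
    (x : MF (urField A) (q ^ 2 * N)) :
    cExpand q N (embK (A := A) hN hζ (pairOf h) x) =
      expEmb (q ^ 2 * N) (downExp h) (downExp_injective h) (baseEmb A (q ^ 2 * N) x) := by
  haveI : NeZero (q ^ 2 * N) := ⟨mul_ne_zero (pow_ne_zero _ (NeZero.ne q)) (NeZero.ne N)⟩
  have key : ∀ (d : ℕ) [NeZero d] (y : modularFunctionFieldBar (q ^ 2 * N))
      (g : modFunRing (q ^ 2 * N)) (o : Option (Fin q)), toC (q ^ 2 * N) y = qL _ g →
      (∀ σ, (g : ℍ → ℂ) (downPt q (h • σ)) = conjFun d o σ) →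
      expEmb (q ^ 2 * N) (downExp h) (downExp_injective h) y =
        cExpand q N (rootMap ζ o (jd Qbar d)) := by
    intro d _ y g o hy hg
    have h1 := expEmb_mul (q ^ 2 * N) (downExp h) (downExp_injective h) (f := y) (a := g) (b := 1)
      (by rw [map_one, mul_one, hy])
    rw [map_one, mul_one] at h1
    rw [h1]
    exact (expands_downExp h g).unique ((expands_cExpand_conjFun hζC d o).congr_fun'
      (Eventually.of_forall fun σ => (hg σ).symm))
  refine RingHom.congr_fun (ringHom_MF_ext (f := (cExpand q N).comp (embK (A := A) hN hζ (pairOf h)))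
    (g := (expEmb (q ^ 2 * N) (downExp h) (downExp_injective h)).comp (baseEmb A (q ^ 2 * N)))
    (fun c => ?_) ?_ ?_) x
  · rw [RingHom.comp_apply, RingHom.comp_apply, embK_algebraMap, baseEmb_algebraMap,
      over_expEmb (q ^ 2 * N) (downExp h) (downExp_injective h) (c : Qbar)]
    show qExpand ℂ _ (coeffMap embC _) = _
    rw [algebraMap_laurentSeries_eq_single, coeffMap_single, qExpand_single, mul_zero]
  · rw [RingHom.comp_apply, RingHom.comp_apply, embK_jMF]
    refine Eq.trans (congrArg _ ?_) (key 1 _ ⟨jFun, jFun_mem⟩ (lineOf q 0 h) ?_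
      fun σ => jFun_down_smul h σ).symm
    · rw [jd, qExpand_one_apply]; rfl
    · rw [toC_apply, coe_baseEmb, toSeriesQbar_apply, jMF_coe, coeffMap_jqModC, coeffMap_jqModC,
        qL_jFun]
  · rw [RingHom.comp_apply, RingHom.comp_apply, embK_jd]
    refine (key N _ ⟨jMul (q ^ 2 * N), jMul_mem dvd_rfl⟩ (lineOf q 1 h) ?_
      fun σ => jMul_down_smul hN hh σ).symm
    rw [toC_apply, coe_baseEmb, toSeriesQbar_jd A _ _ dvd_rfl, qL_jMul dvd_rfl, coeffMap_qExpand,
      coeffMap_jqModC]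

/-- Elements of the field of conjugates are quotients of `Γ(q N)`-invariant functions. -/
theorem exists_invariant_quotient (hζC : embC (ζ : Qbar) = (zetaC q : ℂ))
    {y : LaurentSeries Qbar} (hy : y ∈ fieldL q A N ζ) :
    ∃ (F G : ℍ → ℂ) (α β : LaurentSeries ℂ), MDiff F ∧ MDiff G ∧
      (∀ k ∈ Gamma (q * N), ∀ σ, F (k • σ) = F σ ∧ G (k • σ) = G σ) ∧
      Expands (q * (q ^ 2 * N)) F α ∧ Expands (q * (q ^ 2 * N)) G β ∧ β ≠ 0 ∧
      cExpand q N y * β = α := by
  induction hy using IntermediateField.adjoin_induction with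
  | mem z hz =>
    rcases hz with ⟨o, rfl⟩ | ⟨o, rfl⟩
    · refine ⟨conjFun 1 o, 1, _, 1, mdifferentiable_conjFun 1 o, mdifferentiable_const,
        fun k hk σ => ⟨conjFun_smul 1 o (Gamma_le_of_dvd (by simp) hk) σ, rfl⟩,
        expands_cExpand_conjFun hζC 1 o, Expands.one _, one_ne_zero, ?_⟩
      rw [mul_one, jd, qExpand_one_apply]
    · exact ⟨conjFun N o, 1, _, 1, mdifferentiable_conjFun N o, mdifferentiable_const,
        fun k hk σ => ⟨conjFun_smul N o hk σ, rfl⟩, expands_cExpand_conjFun hζC N o,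
        Expands.one _, one_ne_zero, mul_one _⟩
  | algebraMap c =>
    refine ⟨fun _ => embC (c : Qbar), 1, _, 1, mdifferentiable_const, mdifferentiable_const,
      fun k _ σ => ⟨rfl, rfl⟩, Expands.const _ _, Expands.one _, one_ne_zero, ?_⟩
    rw [mul_one, urAlgebraMap_series]
    show qExpand ℂ _ (coeffMap embC _) = _
    rw [algebraMap_laurentSeries_eq_single, coeffMap_single, qExpand_single, mul_zero,
      HahnSeries.C_apply]
  | add a b _ _ ha hb =>
    obtain ⟨F, G, α, β, hF, hG, hk, hα, hβ, hβ0, e⟩ := ha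
    obtain ⟨F', G', α', β', hF', hG', hk', hα', hβ', hβ0', e'⟩ := hb
    refine ⟨F * G' + F' * G, G * G', _, _, (hF.mul hG').add (hF'.mul hG), hG.mul hG',
      fun k hkk σ => by
        simp only [Pi.add_apply, Pi.mul_apply, (hk k hkk σ).1, (hk k hkk σ).2, (hk' k hkk σ).1,
          (hk' k hkk σ).2, and_self],
      (hα.mul hβ').add (hα'.mul hβ), hβ.mul hβ', mul_ne_zero hβ0 hβ0', ?_⟩
    rw [map_add, ← e, ← e']; ring
  | inv a _ ha =>
    obtain ⟨F, G, α, β, hF, hG, hk, hα, hβ, hβ0, e⟩ := ha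
    by_cases h0 : a = 0
    · exact ⟨0, 1, 0, 1, mdifferentiable_const, mdifferentiable_const,
        fun k _ σ => ⟨rfl, rfl⟩, Expands.zero _, Expands.one _, one_ne_zero, by simp [h0]⟩
    · have hne : cExpand q N a ≠ 0 := (map_ne_zero _).2 h0
      refine ⟨G, F, β, α, hG, hF, fun k hkk σ => (hk k hkk σ).symm, hβ, hα, ?_, ?_⟩
      · rw [← e]; exact mul_ne_zero hne hβ0
      · rw [map_inv₀, ← e, inv_mul_cancel_left₀ hne]
  | mul a b _ _ ha hb =>
    obtain ⟨F, G, α, β, hF, hG, hk, hα, hβ, hβ0, e⟩ := ha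
    obtain ⟨F', G', α', β', hF', hG', hk', hα', hβ', hβ0', e'⟩ := hb
    refine ⟨F * F', G * G', _, _, hF.mul hF', hG.mul hG',
      fun k hkk σ => by
        simp only [Pi.add_apply, Pi.mul_apply, (hk k hkk σ).1, (hk k hkk σ).2, (hk' k hkk σ).1,
          (hk' k hkk σ).2, and_self],
      hα.mul hα', hβ.mul hβ', mul_ne_zero hβ0 hβ0', ?_⟩
    rw [map_mul, ← e, ← e']; ring

end FLTAgent.RT.Carayol
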