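import Fermat.Agent.RT.Carayol.Level

/-!
# Balanced classes from pairs of lines modulo `q`

The rows of `g` modulo `q` give two distinct lines.  A class is balanced as soon as its values at
`h k h⁻¹`, `h ∈ Γ₀(N)`, are killed by weights with zero sums over each first and each second line.
Here `N` is any multiple of `M` prime to `q`.
-/

set_option autoImplicit false
set_option linter.style.haveILetI false

noncomputable section

namespace FLTAgent.RT.Carayol

open LevelRaise CongruenceSubgroup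
open scoped MatrixGroups

/-- The line through `(a, b)` modulo `q`, as `none` for `(0, 1)` and `some i` for `(1, i)`. -/
def rowLine (q : ℕ) [NeZero q] (a b : ℤ) : Option (Fin q) :=
  if (a : ZMod q) = 0 then none
  else some ⟨((b : ZMod q) * (a : ZMod q)⁻¹).val, ZMod.val_lt _⟩

/-- The line of a row modulo `q`. -/
def lineOf (q : ℕ) [NeZero q] (r : Fin 2) (g : SL(2, ℤ)) : Option (Fin q) :=
  rowLine q (matSL g r 0) (matSL g r 1)

section Lines

variable {q : ℕ} [Fact q.Prime]

local instance : NeZero q := ⟨(Fact.out : q.Prime).ne_zero⟩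

theorem rowLine_eq_some {a b : ℤ} {i : Fin q} (h : rowLine q a b = some i) :
    (a : ZMod q) ≠ 0 ∧ (b : ZMod q) = a * (i : ℕ) := by
  rw [rowLine] at h
  split_ifs at h with ha
  obtain rfl := Option.some.inj h
  exact ⟨ha, by simp only [ZMod.natCast_zmod_val]; field_simp⟩

theorem rowLine_eq_none {a b : ℤ} (h : rowLine q a b = none) : (a : ZMod q) = 0 := by
  rw [rowLine] at h
  split_ifs at h with ha
  exact ha

theorem rowLine_congr {a b a' b' : ℤ} {u : ZMod q} (hu : u ≠ 0) (ha : (a' : ZMod q) = u * a)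
    (hb : (b' : ZMod q) = u * b) : rowLine q a' b' = rowLine q a b := by
  rw [rowLine, rowLine]
  by_cases h : (a : ZMod q) = 0
  · rw [if_pos h, if_pos (by rw [ha, h, mul_zero])]
  · rw [if_neg h, if_neg (by rw [ha]; exact mul_ne_zero hu h)]
    refine congrArg some (Fin.ext ?_)
    show ((b' : ZMod q) * (a' : ZMod q)⁻¹).val = _
    rw [ha, hb]
    congr 1
    field_simp

theorem det_mod (g : SL(2, ℤ)) :
    (matSL g 0 0 : ZMod q) * (matSL g 1 1) - (matSL g 0 1) * (matSL g 1 0) = 1 := by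
  exact_mod_cast congrArg (fun z : ℤ => (z : ZMod q)) (det_matSL g)

theorem lineOf_ne (g : SL(2, ℤ)) : lineOf q 0 g ≠ lineOf q 1 g := by
  intro h
  have hd := det_mod (q := q) g
  rcases h0 : lineOf q 0 g with _ | i
  · have h1 := h.symm.trans h0
    rw [rowLine_eq_none h0, rowLine_eq_none h1] at hd
    simp at hd
  · have h1 := h.symm.trans h0
    rw [(rowLine_eq_some h0).2, (rowLine_eq_some h1).2] at hd
    ring_nf at hd
    exact zero_ne_one hd

theorem intCast_mul_apply (u g : SL(2, ℤ)) (r s : Fin 2) :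
    (matSL (u * g) r s : ZMod q) =
      (matSL u r 0 : ZMod q) * (matSL g 0 s) + (matSL u r 1 : ZMod q) * (matSL g 1 s) := by
  rw [matSL_mul, Matrix.mul_apply, Fin.sum_univ_two]
  push_cast
  ring

/-- Lower triangular factors fix the first line. -/
theorem lineOf_zero_mul {u : SL(2, ℤ)} (hu : (matSL u 0 1 : ZMod q) = 0) (g : SL(2, ℤ)) :
    lineOf q 0 (u * g) = lineOf q 0 g := by
  have hd := det_mod (q := q) u
  refine rowLine_congr (u := (matSL u 0 0 : ZMod q)) (fun h => ?_) ?_ ?_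
  · rw [h, hu] at hd; simp at hd
  · rw [intCast_mul_apply, hu, zero_mul, add_zero]
  · rw [intCast_mul_apply, hu, zero_mul, add_zero]

/-- Upper triangular factors fix the second line. -/
theorem lineOf_one_mul {u : SL(2, ℤ)} (hu : (matSL u 1 0 : ZMod q) = 0) (g : SL(2, ℤ)) :
    lineOf q 1 (u * g) = lineOf q 1 g := by
  have hd := det_mod (q := q) u
  refine rowLine_congr (u := (matSL u 1 1 : ZMod q)) (fun h => ?_) ?_ ?_
  · rw [h, hu] at hd; simp at hd
  · rw [intCast_mul_apply, hu, zero_mul, zero_add]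
  · rw [intCast_mul_apply, hu, zero_mul, zero_add]

/-- `Γ₀(N)` maps onto `SL(2, ZMod q)`. -/
theorem exists_gamma0_congr {N : ℕ} (hN : ¬ q ∣ N) (g : SL(2, ℤ)) :
    ∃ h ∈ Gamma0 N, ∀ r s, (matSL h r s : ZMod q) = matSL g r s := by
  have hN0 : (N : ZMod q) ≠ 0 := by rwa [Ne, ZMod.natCast_eq_zero_iff]
  have main : ∀ g : SL(2, ℤ), (matSL g 1 0 : ZMod q) ≠ 0 →
      ∃ h ∈ Gamma0 N, ∀ r s, (matSL h r s : ZMod q) = matSL g r s := by
    intro g hg
    obtain ⟨x, hx⟩ := ZMod.intCast_surjective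
      (((matSL g 0 0 : ZMod q) - 1) * (matSL g 1 0 : ZMod q)⁻¹)
    obtain ⟨y, hy⟩ := ZMod.intCast_surjective
      (((matSL g 1 1 : ZMod q) - 1) * (matSL g 1 0 : ZMod q)⁻¹)
    obtain ⟨m, hm⟩ := ZMod.intCast_surjective ((matSL g 1 0 : ZMod q) * (N : ZMod q)⁻¹)
    refine ⟨slMk (1 + x * (N * m)) (x + (1 + x * (N * m)) * y) (N * m) (N * m * y + 1) (by ring),
      mem_gamma0_iff.mpr (by simp), fun r s => ?_⟩
    have hd := det_mod (q := q) g
    fin_cases r <;> fin_cases s <;>
      simp only [Fin.zero_eta, Fin.mk_one, matSL_slMk, Matrix.of_apply, Matrix.cons_val',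
        Matrix.cons_val_zero, Matrix.cons_val_one, Matrix.cons_val_fin_one] <;>
      push_cast <;> rw [hm] <;> (try rw [hx]) <;> (try rw [hy]) <;> field_simp
    · ring
    · linear_combination hd
    · ring
  by_cases hg : (matSL g 1 0 : ZMod q) = 0
  · obtain ⟨m, hm⟩ := ZMod.intCast_surjective ((N : ZMod q)⁻¹)
    have hl : ((slMk 1 0 (N * m) 1 (by ring) : SL(2, ℤ))) ∈ Gamma0 N :=
      mem_gamma0_iff.mpr (by simp)
    set l : SL(2, ℤ) := slMk 1 0 (N * m) 1 (by ring)
    obtain ⟨h, hh, hc⟩ := main (l * g) (by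
      rw [intCast_mul_apply, hg]
      simp only [l, matSL_slMk, Matrix.of_apply, Matrix.cons_val', Matrix.cons_val_zero,
        Matrix.cons_val_one, Matrix.cons_val_fin_one]
      push_cast
      rw [hm, mul_inv_cancel₀ hN0, one_mul, mul_zero, add_zero]
      intro h
      have hd := det_mod (q := q) g
      rw [h, hg] at hd
      simp at hd)
    refine ⟨l⁻¹ * h, mul_mem (inv_mem hl) hh, fun r s => ?_⟩
    rw [intCast_mul_apply, hc, hc, intCast_mul_apply, intCast_mul_apply]
    have e : (matSL (1 : SL(2, ℤ)) r 0 : ZMod q) * matSL g 0 s + matSL (1 : SL(2, ℤ)) r 1 * matSL g 1 s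
        = matSL g r s := by rw [← intCast_mul_apply, one_mul]
    rw [← e, ← inv_mul_cancel l, intCast_mul_apply, intCast_mul_apply]
    ring
  · exact main g hg

end Lines

/-- Weights with zero sums along the fibres of `f` sum to zero on unions of fibres. -/
theorem sum_filter_eq_zero {X Y : Type*} [Fintype X] [DecidableEq Y] (f : X → Y) (c : X → ℤ)
    (hc : ∀ y, ∑ x ∈ Finset.univ.filter (fun x => f x = y), c x = 0) (P : X → Prop)
    [DecidablePred P] (hP : ∀ x x', f x = f x' → P x → P x') :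
    ∑ x ∈ Finset.univ.filter P, c x = 0 := by
  rw [← Finset.sum_fiberwise_of_maps_to (g := f) (t := (Finset.univ.filter P).image f)
    fun x hx => Finset.mem_image_of_mem f hx]
  refine Finset.sum_eq_zero fun y hy => ?_
  obtain ⟨x₀, hx₀, rfl⟩ := Finset.mem_image.1 hy
  rw [Finset.mem_filter] at hx₀
  rw [Finset.filter_filter, ← hc (f x₀)]
  exact Finset.sum_congr (Finset.filter_congr fun x _ =>
    ⟨fun h => h.2, fun h => ⟨hP x₀ x h.symm hx₀.2, h⟩⟩) fun _ _ => rfl

variable {M q N : ℕ} [NeZero M] [Fact q.Prime] {A : Type*} [AddCommGroup A]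

local instance : NeZero q := ⟨(Fact.out : q.Prime).ne_zero⟩

omit [NeZero M] in
theorem gamma0_inf_mem_upper0 {g : SL(2, ℤ)} (hg : g ∈ Gamma0 M) (hqM : ¬ q ∣ M)
    (h10 : (matSL g 1 0 : ZMod q) = 0) (h01 : (matSL g 0 1 : ZMod q) = 0) :
    g ∈ upper0 (M * q) q := by
  refine ⟨mem_gamma0_iff.mpr ?_, (ZMod.intCast_zmod_eq_zero_iff_dvd _ _).mp h01⟩
  push_cast
  refine IsCoprime.mul_dvd ?_ (mem_gamma0_iff.mp hg)
    ((ZMod.intCast_zmod_eq_zero_iff_dvd _ _).mp h10)
  exact Nat.isCoprime_iff_coprime.mpr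
    (((Fact.out : q.Prime).coprime_iff_not_dvd).mpr hqM).symm

/-- A class killed by weights with zero sums over the lines is balanced. -/
theorem isBalancedClass_of_lines (W : WData M q) (φ : Coh (M * q * q) trivChar A) (hMN : M ∣ N)
    (hN : ¬ q ∣ N) {Q : ℕ} (hQ0 : Q ≠ 0) (hQ : Gamma Q ≤ upper0 (M * q) q)
    (H : ∀ (X : Type) [Fintype X] (k : SL(2, ℤ)) (hk : k ∈ Gamma Q) (h : X → SL(2, ℤ)),
      (∀ x, h x ∈ Gamma0 N) → ∀ c : X → ℤ,
        (∀ (r : Fin 2) (o : Option (Fin q)),
          ∑ x ∈ Finset.univ.filter (fun x => lineOf q r (h x) = o), c x = 0) →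
        ∑ x, c x • upVer (M * q) q φ
          (Additive.ofMul ⟨h x * k * (h x)⁻¹, hQ ((Gamma_normal Q).conj_mem _ hk _)⟩) = 0) :
    IsBalancedClass W φ := by
  classical
  letI := Fintype.ofFinite (Cos (upper0 (M * q) q))
  refine ⟨Q, hQ0, hQ, fun k hk c hc₁ hc₂ => ?_⟩
  have hle : upper0 (M * q) q ≤ Gamma0 M := fun γ hγ => gamma0_le (dvd_mul_right M q) hγ.1
  set π := cosMap hle
  letI := Fintype.ofFinite (Cos (Gamma0 M))
  rw [← Finset.sum_fiberwise_of_maps_to (g := π) (t := Finset.univ) fun x _ => Finset.mem_univ _]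
  refine Finset.sum_eq_zero fun y _ => ?_
  have he : ∀ x : {x : Cos (upper0 (M * q) q) // π x = y},
      y.out⁻¹ * x.1.out ∈ Gamma0 M := fun x => by
    refine QuotientGroup.eq.mp ?_
    rw [QuotientGroup.out_eq']
    conv_lhs => rw [← x.2]
    show π x.1 = π (x.1.out : Cos (upper0 (M * q) q))
    rw [QuotientGroup.out_eq']
  choose h hh hcongr using fun x : {x : Cos (upper0 (M * q) q) // π x = y} =>
    exists_gamma0_congr (q := q) hN (y.out⁻¹ * x.1.out)⁻¹
  have hu : ∀ x, (y.out⁻¹ * x.1.out)⁻¹ * (h x)⁻¹ ∈ upper0 (M * q) q := fun x => by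
    have hone : ∀ r s, (matSL ((y.out⁻¹ * x.1.out)⁻¹ * (h x)⁻¹) r s : ZMod q) =
        matSL (1 : SL(2, ℤ)) r s := fun r s => by
      rw [← mul_inv_cancel (h x), intCast_mul_apply, intCast_mul_apply, hcongr, hcongr]
    refine gamma0_inf_mem_upper0 (mul_mem (inv_mem (he x)) (inv_mem (gamma0_le hMN (hh x))))
      W.not_dvd ?_ ?_ <;> rw [hone] <;> simp
  have hk' : y.out⁻¹ * k * y.out ∈ Gamma Q := by
    simpa using (Gamma_normal Q).conj_mem _ hk y.out⁻¹
  have hrel : ∀ x x' (r s : Fin 2),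
      (matSL (h x * (h x')⁻¹) r s : ZMod q) = matSL (x.1.out⁻¹ * x'.1.out) r s := fun x x' r s => by
    have e : x.1.out⁻¹ * x'.1.out = (y.out⁻¹ * x.1.out)⁻¹ * (y.out⁻¹ * x'.1.out) := by group
    rw [e, intCast_mul_apply, intCast_mul_apply (u := (y.out⁻¹ * x.1.out)⁻¹), hcongr, hcongr]
    have hinv : ∀ r s, (matSL (h x')⁻¹ r s : ZMod q) = matSL (y.out⁻¹ * x'.1.out) r s := by
      intro r s
      have := fun r s => hcongr x' r s
      fin_cases r <;> fin_cases s <;>
        simp only [matSL, Matrix.SpecialLinearGroup.coe_inv, Matrix.adjugate_fin_two] at this ⊢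
      all_goals
        rw [← inv_inv (y.out⁻¹ * x'.1.out)]
        simp only [Matrix.SpecialLinearGroup.coe_inv, Matrix.adjugate_fin_two]
        simp [this]
    rw [hinv, hinv]
  -- zero sums over the lines
  have hline : ∀ (r : Fin 2) (o : Option (Fin q)),
      ∑ x ∈ Finset.univ.filter (fun x => lineOf q r (h x) = o), c x.1 = 0 := by
    intro r o
    set P : Cos (upper0 (M * q) q) → Prop := fun x =>
      ∃ hx : π x = y, lineOf q r (h ⟨x, hx⟩) = o
    have hzero : ∑ x ∈ Finset.univ.filter P, c x = 0 := by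
      fin_cases r
      · refine sum_filter_eq_zero _ c hc₂ P fun x x' e hP => ?_
        obtain ⟨hx, hl⟩ := hP
        have hδ : (W.eps : SL(2, ℤ)) * (x.out⁻¹ * x'.out) * (W.eps : SL(2, ℤ))⁻¹ ∈
            Gamma0 (M * q) := by
          have e' := e
          rw [← QuotientGroup.out_eq' x, ← QuotientGroup.out_eq' x'] at e'
          have := QuotientGroup.eq.mp (show
            ((x.out * (W.eps : SL(2, ℤ))⁻¹ : SL(2, ℤ)) : Cos (Gamma0 (M * q))) =
              (x'.out * (W.eps : SL(2, ℤ))⁻¹ : SL(2, ℤ)) from e')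
          simpa [mul_assoc] using this
        have hδM : x.out⁻¹ * x'.out ∈ Gamma0 M := by
          have := mul_mem (mul_mem (inv_mem W.eps.2) (gamma0_le (dvd_mul_right M q) hδ)) W.eps.2
          simpa [mul_assoc] using this
        have hy : π x' = y := by
          rw [← hx, ← QuotientGroup.out_eq' x, ← QuotientGroup.out_eq' x']
          exact (QuotientGroup.eq.mpr hδM).symm
        refine ⟨hy, ?_⟩
        rw [← hl, show h ⟨x, hx⟩ = h ⟨x, hx⟩ * (h ⟨x', hy⟩)⁻¹ * h ⟨x', hy⟩ by simp]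
        refine (lineOf_zero_mul ?_ _).symm
        rw [hrel]
        have h10 := (ZMod.intCast_zmod_eq_zero_iff_dvd _ q).mpr
          ((Int.natCast_dvd_natCast.mpr (dvd_mul_left q M)).trans (mem_gamma0_iff.mp hδ))
        have hM : (M : ZMod q) ≠ 0 := fun h0 =>
          W.not_dvd ((ZMod.natCast_eq_zero_iff _ _).mp h0)
        have e10 : (matSL (W.eps : SL(2, ℤ)) 1 0 : ZMod q) = M := by simp [WData.eps]
        have e11 : (matSL (W.eps : SL(2, ℤ)) 1 1 : ZMod q) = 0 := by simp [WData.eps]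
        have i00 : (matSL (W.eps : SL(2, ℤ))⁻¹ 0 0 : ZMod q) = 0 := by
          rw [matSL, Matrix.SpecialLinearGroup.coe_inv, Matrix.adjugate_fin_two]; simpa using e11
        have i10 : (matSL (W.eps : SL(2, ℤ))⁻¹ 1 0 : ZMod q) = -M := by
          rw [matSL, Matrix.SpecialLinearGroup.coe_inv, Matrix.adjugate_fin_two]; simpa using e10
        rw [intCast_mul_apply, i00, i10, mul_zero, zero_add, intCast_mul_apply, e10, e11, zero_mul,
          add_zero] at h10
        simpa [hM] using h10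
      · refine sum_filter_eq_zero _ c hc₁ P fun x x' e hP => ?_
        obtain ⟨hx, hl⟩ := hP
        have hδ : x.out⁻¹ * x'.out ∈ Gamma0 (M * q) := by
          have e' := e
          rw [← QuotientGroup.out_eq' x, ← QuotientGroup.out_eq' x'] at e'
          exact QuotientGroup.eq.mp (show ((x.out : SL(2, ℤ)) : Cos (Gamma0 (M * q))) =
            (x'.out : SL(2, ℤ)) from e')
        have hy : π x' = y := by
          rw [← hx, ← QuotientGroup.out_eq' x, ← QuotientGroup.out_eq' x']
          exact (QuotientGroup.eq.mpr (gamma0_le (dvd_mul_right M q) hδ)).symm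
        refine ⟨hy, ?_⟩
        rw [← hl, show h ⟨x, hx⟩ = h ⟨x, hx⟩ * (h ⟨x', hy⟩)⁻¹ * h ⟨x', hy⟩ by simp]
        refine (lineOf_one_mul ?_ _).symm
        rw [hrel]
        exact (ZMod.intCast_zmod_eq_zero_iff_dvd _ _).mpr
          ((Int.natCast_dvd_natCast.mpr (dvd_mul_left q M)).trans (mem_gamma0_iff.mp hδ))
    rw [← hzero]
    refine Finset.sum_bij (fun x _ => x.1) (fun x hx => ?_) (fun a _ b _ e => Subtype.ext e)
      (fun x hx => ?_) fun _ _ => rfl
    · simp only [Finset.mem_filter, Finset.mem_univ, true_and, P] at hx ⊢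
      exact ⟨x.2, hx⟩
    · simp only [Finset.mem_filter, Finset.mem_univ, true_and, P] at hx
      exact ⟨⟨x, hx.1⟩, by simpa using hx.2, rfl⟩
  have hsum := H {x : Cos (upper0 (M * q) q) // π x = y} (y.out⁻¹ * k * y.out) hk' h hh
    (fun x => c x.1) hline
  rw [← hsum]
  rw [Finset.sum_subtype (p := fun x => π x = y) _ (by simp)]
  refine Finset.sum_congr rfl fun x _ => congrArg (c x.1 • ·) ?_
  have hcell : cellG k x.1 = ⟨_, hu x⟩ *
      ⟨_, hQ ((Gamma_normal Q).conj_mem _ hk' (h x))⟩ * (⟨_, hu x⟩ : upper0 (M * q) q)⁻¹ := by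
    refine Subtype.ext ?_
    rw [cellG_of_fixed (smul_eq_of_mem_gamma hQ hk x.1)]
    simp only [Subgroup.coe_mul, Subgroup.coe_inv]
    group
  rw [homCocycle, hcell, ofMul_mul, ofMul_mul, ofMul_inv, map_add, map_add, map_neg]
  abel

end FLTAgent.RT.Carayol
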